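import Fermat.Agent.LT.H556.T0.ArchLocal

/-!
# Row LT, tower T0 (helper556): Iwasawa decomposition in `SL₂(ℂ)` and the mean-value property in
upper-half-space coordinates

For `M ∈ GL₂(ℂ)` with `det M = 1` and second row `(C, D)`:
`M = [[y, x], [0, 1]] · ρ · u`, `ρ = √(|C|² + |D|²)`, `y = 1 / ρ²`, `x = (A C̄ + B D̄) / ρ²`,
`u` unitary.  Hence a function on `GL₂(𝔸_K)` which is right invariant under the positive scalars
and under `U(2)` at a complex place `w` takes at `g · (element of matrix M at w)` the value at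
`g · b_w(x, y)`.  OFF-MAIN.
-/

set_option autoImplicit false
set_option linter.unusedSectionVars false

open IsDedekindDomain NumberField

noncomputable section

namespace Fermat.Agent.LT.H556.T0

open Fermat.Agent.LT.H556.A0 Fermat.Agent.LT.T8.H864

/-! ## Linear algebra in `GL₂(ℂ)` -/

/-- `|C|² + |D|²` for the second row `(C, D)` of `M`. -/
def iwR (M : Matrix (Fin 2) (Fin 2) ℂ) : ℝ := Complex.normSq (M 1 0) + Complex.normSq (M 1 1)

/-- The height `y = 1 / (|C|² + |D|²)` of `M · o` in `ℍ³` (for `det M = 1`). -/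
def iwY (M : Matrix (Fin 2) (Fin 2) ℂ) : ℝ := (iwR M)⁻¹

/-- The coordinate `x = (A C̄ + B D̄) / (|C|² + |D|²)` of `M · o` in `ℍ³`. -/
def iwX (M : Matrix (Fin 2) (Fin 2) ℂ) : ℂ :=
  (M 0 0 * star (M 1 0) + M 0 1 * star (M 1 1)) / (iwR M : ℂ)

theorem iwR_pos {M : Matrix (Fin 2) (Fin 2) ℂ} (h : M.det = 1) : 0 < iwR M := by
  unfold iwR
  by_contra hneg
  have h0 : Complex.normSq (M 1 0) + Complex.normSq (M 1 1) = 0 :=
    le_antisymm (not_lt.1 hneg) (add_nonneg (Complex.normSq_nonneg _) (Complex.normSq_nonneg _))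
  have h1 : Complex.normSq (M 1 0) = 0 := by
    have := Complex.normSq_nonneg (M 1 0)
    have := Complex.normSq_nonneg (M 1 1)
    linarith
  have h2 : Complex.normSq (M 1 1) = 0 := by
    have := Complex.normSq_nonneg (M 1 0)
    linarith
  rw [Complex.normSq_eq_zero] at h1 h2
  rw [Matrix.det_fin_two, h1, h2] at h
  simp at h

/-- The upper triangular matrix `[[y, x], [0, 1]]`, `y ≠ 0`. -/
def upperU (x : ℂ) (y : ℝ) (hy : y ≠ 0) : GL (Fin 2) ℂ :=
  Matrix.GeneralLinearGroup.mkOfDetNeZero !![(y : ℂ), x; 0, 1]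
    (by rw [Matrix.det_fin_two_of]; simpa using hy)

theorem coe_upperU (x : ℂ) (y : ℝ) (hy : y ≠ 0) :
    ((upperU x y hy : GL (Fin 2) ℂ) : Matrix (Fin 2) (Fin 2) ℂ) = !![(y : ℂ), x; 0, 1] := rfl

/-- The scalar matrix `ρ`, `ρ ≠ 0`. -/
def scalarU (ρ : ℝ) (hρ : ρ ≠ 0) : GL (Fin 2) ℂ :=
  Matrix.GeneralLinearGroup.mkOfDetNeZero (Matrix.diagonal (fun _ => (ρ : ℂ)))
    (by rw [Matrix.det_diagonal]; simpa using hρ)

theorem coe_scalarU (ρ : ℝ) (hρ : ρ ≠ 0) :
    ((scalarU ρ hρ : GL (Fin 2) ℂ) : Matrix (Fin 2) (Fin 2) ℂ)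
      = Matrix.diagonal (fun _ => (ρ : ℂ)) := rfl

/-- Entrywise form of the Lagrange identity used for the Iwasawa decomposition. -/
theorem lagrange_entries (A B C D x σ y R : ℂ) (xb Ab Bb Cb Db : ℂ)
    (hR : R = C * Cb + D * Db) (hR0 : R ≠ 0) (hσ : σ * σ = R) (hy : y = R⁻¹)
    (hx : x = (A * Cb + B * Db) / R) (hxb : xb = (Ab * C + Bb * D) / R)
    (hdet : A * D - B * C = 1) (hdetb : Ab * Db - Bb * Cb = 1) :
    A * Ab + B * Bb = σ * y * (σ * y) + σ * x * (σ * xb) ∧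
    A * Cb + B * Db = σ * x * σ ∧
    C * Ab + D * Bb = σ * (σ * xb) ∧
    C * Cb + D * Db = σ * σ := by
  refine ⟨?_, ?_, ?_, ?_⟩
  · have h1 : σ * y * (σ * y) + σ * x * (σ * xb) = (σ * σ) * (y * y + x * xb) := by ring
    rw [h1, hσ, hy, hx, hxb]
    field_simp
    have key : (A * Ab + B * Bb) * (C * Cb + D * Db) - (A * Cb + B * Db) * (Ab * C + Bb * D)
        = (A * D - B * C) * (Ab * Db - Bb * Cb) := by ring
    rw [hdet, hdetb] at key
    rw [hR]
    linear_combination key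
  · have h1 : σ * x * σ = (σ * σ) * x := by ring
    rw [h1, hσ, hx]
    field_simp
  · have h1 : σ * (σ * xb) = (σ * σ) * xb := by ring
    rw [h1, hσ, hxb]
    field_simp
  · rw [hσ, hR]

/-- The matrix `B = [[y, x], [0, 1]] · ρ` of the Iwasawa decomposition of `M`. -/
def iwB (M : Matrix (Fin 2) (Fin 2) ℂ) : Matrix (Fin 2) (Fin 2) ℂ :=
  !![(iwY M : ℂ), iwX M; 0, 1] * Matrix.diagonal (fun _ => ((Real.sqrt (iwR M) : ℝ) : ℂ))

theorem iwB_eq (M : Matrix (Fin 2) (Fin 2) ℂ) :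
    iwB M = !![((Real.sqrt (iwR M) : ℝ) : ℂ) * (iwY M : ℂ), ((Real.sqrt (iwR M) : ℝ) : ℂ) * iwX M;
      0, ((Real.sqrt (iwR M) : ℝ) : ℂ)] := by
  unfold iwB
  ext i j
  fin_cases i <;> fin_cases j <;>
    simp [Matrix.mul_apply, Matrix.diagonal_apply, mul_comm]

/-- `M Mᴴ = B Bᴴ` for `B = [[y, x], [0, 1]] · ρ`: the Lagrange identity. -/
theorem mul_conjTranspose_eq {M : Matrix (Fin 2) (Fin 2) ℂ} (h : M.det = 1) :
    M * M.conjTranspose = iwB M * (iwB M).conjTranspose := by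
  have hR := iwR_pos h
  have hRc : ((iwR M : ℝ) : ℂ) ≠ 0 := Complex.ofReal_ne_zero.2 hR.ne'
  have hsq : ((Real.sqrt (iwR M) : ℝ) : ℂ) * ((Real.sqrt (iwR M) : ℝ) : ℂ) = (iwR M : ℂ) := by
    rw [← Complex.ofReal_mul, Real.mul_self_sqrt hR.le]
  have hRdef : ((iwR M : ℝ) : ℂ) = M 1 0 * star (M 1 0) + M 1 1 * star (M 1 1) := by
    unfold iwR
    rw [Complex.ofReal_add, Complex.normSq_eq_conj_mul_self, Complex.normSq_eq_conj_mul_self]
    simp only [Complex.star_def]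
    ring
  have hdet : M 0 0 * M 1 1 - M 0 1 * M 1 0 = 1 := by rw [← Matrix.det_fin_two]; exact h
  have hdet' : star (M 0 0) * star (M 1 1) - star (M 0 1) * star (M 1 0) = 1 := by
    have := congrArg star hdet
    simpa using this
  have hsr : star ((Real.sqrt (iwR M) : ℝ) : ℂ) = ((Real.sqrt (iwR M) : ℝ) : ℂ) :=
    Complex.conj_ofReal _
  have hsy : star ((iwY M : ℝ) : ℂ) = ((iwY M : ℝ) : ℂ) := Complex.conj_ofReal _
  have hsR : star ((iwR M : ℝ) : ℂ) = ((iwR M : ℝ) : ℂ) := Complex.conj_ofReal _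
  have hy : ((iwY M : ℝ) : ℂ) = ((iwR M : ℝ) : ℂ)⁻¹ := by
    unfold iwY
    rw [Complex.ofReal_inv]
  have hxb : star (iwX M) = (star (M 0 0) * M 1 0 + star (M 0 1) * M 1 1) / ((iwR M : ℝ) : ℂ) := by
    unfold iwX
    rw [star_div₀, hsR, star_add, star_mul', star_mul', star_star, star_star]
  obtain ⟨e00, e01, e10, e11⟩ := lagrange_entries (M 0 0) (M 0 1) (M 1 0) (M 1 1) (iwX M)
    ((Real.sqrt (iwR M) : ℝ) : ℂ) ((iwY M : ℝ) : ℂ) ((iwR M : ℝ) : ℂ) (star (iwX M))
    (star (M 0 0)) (star (M 0 1)) (star (M 1 0)) (star (M 1 1)) hRdef hRc hsq hy rfl hxb hdet hdet'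
  rw [iwB_eq]
  ext i j
  fin_cases i <;> fin_cases j
  · simpa [Matrix.mul_apply, Fin.sum_univ_two, Matrix.conjTranspose_apply, hsr, hsy] using e00
  · simpa [Matrix.mul_apply, Fin.sum_univ_two, Matrix.conjTranspose_apply, hsr, hsy] using e01
  · simpa [Matrix.mul_apply, Fin.sum_univ_two, Matrix.conjTranspose_apply, hsr, hsy] using e10
  · simpa [Matrix.mul_apply, Fin.sum_univ_two, Matrix.conjTranspose_apply, hsr, hsy] using e11

theorem iwY_ne_zero {M : Matrix (Fin 2) (Fin 2) ℂ} (h : M.det = 1) : iwY M ≠ 0 :=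
  inv_ne_zero (iwR_pos h).ne'

theorem sqrt_iwR_pos {M : Matrix (Fin 2) (Fin 2) ℂ} (h : M.det = 1) : 0 < Real.sqrt (iwR M) :=
  Real.sqrt_pos.2 (iwR_pos h)

/-- The upper triangular factor of the Iwasawa decomposition, as an element of `GL₂(ℂ)`. -/
def iwUpper (M : GL (Fin 2) ℂ) (h : (M : Matrix (Fin 2) (Fin 2) ℂ).det = 1) : GL (Fin 2) ℂ :=
  upperU (iwX (M : Matrix (Fin 2) (Fin 2) ℂ)) (iwY (M : Matrix (Fin 2) (Fin 2) ℂ)) (iwY_ne_zero h)

/-- The scalar factor of the Iwasawa decomposition. -/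
def iwScalar (M : GL (Fin 2) ℂ) (h : (M : Matrix (Fin 2) (Fin 2) ℂ).det = 1) : GL (Fin 2) ℂ :=
  scalarU (Real.sqrt (iwR (M : Matrix (Fin 2) (Fin 2) ℂ))) (sqrt_iwR_pos h).ne'

/-- The unitary factor of the Iwasawa decomposition. -/
def iwUnitary (M : GL (Fin 2) ℂ) (h : (M : Matrix (Fin 2) (Fin 2) ℂ).det = 1) : GL (Fin 2) ℂ :=
  (iwUpper M h * iwScalar M h)⁻¹ * M

theorem iwasawa_eq (M : GL (Fin 2) ℂ) (h : (M : Matrix (Fin 2) (Fin 2) ℂ).det = 1) :
    M = iwUpper M h * iwScalar M h * iwUnitary M h := by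
  unfold iwUnitary
  rw [mul_inv_cancel_left]

theorem coe_iwUpper_mul_iwScalar (M : GL (Fin 2) ℂ)
    (h : (M : Matrix (Fin 2) (Fin 2) ℂ).det = 1) :
    ((iwUpper M h * iwScalar M h : GL (Fin 2) ℂ) : Matrix (Fin 2) (Fin 2) ℂ)
      = iwB (M : Matrix (Fin 2) (Fin 2) ℂ) := rfl

/-- The third factor of the Iwasawa decomposition is unitary. -/
theorem iwUnitary_unitary (M : GL (Fin 2) ℂ) (h : (M : Matrix (Fin 2) (Fin 2) ℂ).det = 1) :
    (iwUnitary M h : Matrix (Fin 2) (Fin 2) ℂ) *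
      (iwUnitary M h : Matrix (Fin 2) (Fin 2) ℂ).conjTranspose = 1 := by
  set Bu : GL (Fin 2) ℂ := iwUpper M h * iwScalar M h with hBu
  have hB : (Bu : Matrix (Fin 2) (Fin 2) ℂ) = iwB (M : Matrix (Fin 2) (Fin 2) ℂ) :=
    coe_iwUpper_mul_iwScalar M h
  have hu : (iwUnitary M h : Matrix (Fin 2) (Fin 2) ℂ)
      = ((Bu⁻¹ : GL (Fin 2) ℂ) : Matrix (Fin 2) (Fin 2) ℂ) * (M : Matrix (Fin 2) (Fin 2) ℂ) := rfl
  have hinv : ((Bu⁻¹ : GL (Fin 2) ℂ) : Matrix (Fin 2) (Fin 2) ℂ) * (Bu : Matrix (Fin 2) (Fin 2) ℂ)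
      = 1 := by
    rw [← Matrix.GeneralLinearGroup.coe_mul, inv_mul_cancel]
    rfl
  rw [hu, Matrix.conjTranspose_mul, ← Matrix.mul_assoc,
    Matrix.mul_assoc ((Bu⁻¹ : GL (Fin 2) ℂ) : Matrix (Fin 2) (Fin 2) ℂ), mul_conjTranspose_eq h,
    ← hB, ← Matrix.mul_assoc, hinv, Matrix.one_mul, ← Matrix.conjTranspose_mul, hinv,
    Matrix.conjTranspose_one]

/-! ## The adelic statement -/

variable {K : Type} [Field K] [NumberField K]

/-- **Iwasawa reduction at a complex place.**  If `φ` is right invariant under the positive scalars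
and under `U(2)` at the complex place `w`, and `h` is supported at `w` with a complex matrix `M` of
determinant one, then `φ (g h) = φ (g b)`, `b = [[y, x], [0, 1]]` at `w`,
`y = iwY M`, `x = iwX M`. -/
theorem apply_mul_eq_upper {w : InfinitePlace K} (hw : w.IsComplex) {φ : G K → ℂ}
    (hs : ∀ z : G K, IsArchPosScalar w z → ∀ g : G K, φ (g * z) = φ g)
    (hk : ∀ k : G K, IsArchCompact w k → ∀ g : G K, φ (g * k) = φ g)
    (M : GL (Fin 2) ℂ) (hM : (M : Matrix (Fin 2) (Fin 2) ℂ).det = 1)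
    {h : G K} (hloc : IsLocalAtInf w h) (hcomp : infComp w h = (M : Matrix (Fin 2) (Fin 2) ℂ))
    (g : G K) : φ (g * h) = φ (g * locInfComplex hw (iwUpper M hM)) := by
  have e1 : h = locInfComplex hw M := eq_locInfComplex hw hloc M hcomp
  have e2 : locInfComplex hw M = locInfComplex hw (iwUpper M hM) *
      locInfComplex hw (iwScalar M hM) * locInfComplex hw (iwUnitary M hM) := by
    rw [← map_mul, ← map_mul, ← iwasawa_eq M hM]
  rw [e1, e2, ← mul_assoc, ← mul_assoc,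
    hk _ (isArchCompact_locInfComplex hw _ (iwUnitary_unitary M hM)),
    hs _ (isArchPosScalar_locInfComplex hw _ _ (sqrt_iwR_pos hM) rfl)]

/-! ## The Euler elements of `A0.MeanValueComplex` -/

/-- The matrix `rotZ α * rotY β * torus d` of `A0.MeanValueComplex`. -/
def eulerMat (α β d : ℝ) : Matrix (Fin 2) (Fin 2) ℂ := rotZ α * rotY β * torus d

theorem det_rotZ (α : ℝ) : (rotZ α).det = 1 := by
  unfold rotZ
  rw [Matrix.det_fin_two_of, mul_zero, sub_zero, ← Complex.exp_add, add_neg_cancel,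
    Complex.exp_zero]

theorem det_rotY (β : ℝ) : (rotY β).det = 1 := by
  unfold rotY
  rw [Matrix.det_fin_two_of]
  have h := Real.cos_sq_add_sin_sq (β / 2)
  have h' : ((Real.cos (β / 2) : ℝ) : ℂ) * ((Real.cos (β / 2) : ℝ) : ℂ)
      + ((Real.sin (β / 2) : ℝ) : ℂ) * ((Real.sin (β / 2) : ℝ) : ℂ) = 1 := by
    rw [← Complex.ofReal_mul, ← Complex.ofReal_mul, ← Complex.ofReal_add]
    have : Real.cos (β / 2) * Real.cos (β / 2) + Real.sin (β / 2) * Real.sin (β / 2) = 1 := by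
      nlinarith [h]
    rw [this, Complex.ofReal_one]
  linear_combination h'

theorem det_torus (d : ℝ) : (torus d).det = 1 := by
  unfold torus
  rw [Matrix.det_fin_two_of, mul_zero, sub_zero, ← Complex.ofReal_mul, ← Real.exp_add,
    add_neg_cancel, Real.exp_zero, Complex.ofReal_one]

theorem det_eulerMat (α β d : ℝ) : (eulerMat α β d).det = 1 := by
  unfold eulerMat
  rw [Matrix.det_mul, Matrix.det_mul, det_rotZ, det_rotY, det_torus, one_mul, one_mul]

/-- The Euler element as an element of `GL₂(ℂ)`. -/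
def eulerU (α β d : ℝ) : GL (Fin 2) ℂ :=
  Matrix.GeneralLinearGroup.mkOfDetNeZero (eulerMat α β d)
    (by rw [det_eulerMat]; exact one_ne_zero)

theorem coe_eulerU (α β d : ℝ) :
    ((eulerU α β d : GL (Fin 2) ℂ) : Matrix (Fin 2) (Fin 2) ℂ) = eulerMat α β d := rfl

theorem det_coe_eulerU (α β d : ℝ) :
    ((eulerU α β d : GL (Fin 2) ℂ) : Matrix (Fin 2) (Fin 2) ℂ).det = 1 := det_eulerMat α β d

/-- The point `k(α, β) a_d · o` of `ℍ³` in upper-half-space coordinates, as an element of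
`GL₂(𝔸_K)` supported at the complex place `w`: `[[y, x], [0, 1]]_w`. -/
def h3G {w : InfinitePlace K} (hw : w.IsComplex) (α β d : ℝ) : G K :=
  locInfComplex hw (iwUpper (eulerU α β d) (det_coe_eulerU α β d))

/-- The mean-value property of parameter `0` in upper-half-space coordinates. -/
def MeanValueUpper {w : InfinitePlace K} (hw : w.IsComplex) (φ : G K → ℂ) : Prop :=
  ∀ d : ℝ, 0 < d → ∀ g : G K,
    (∫ α in (0 : ℝ)..(2 * Real.pi), ∫ β in (0 : ℝ)..Real.pi,
        φ (g * h3G hw α β d) * ((Real.sin β : ℝ) : ℂ))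
      = ((4 * Real.pi * (d / Real.sinh d) : ℝ) : ℂ) * φ g

/-- **Bridge.**  For a function which is right invariant under the positive scalars and under
`U(2)` at the complex place `w`, `A0.MeanValueComplex` is the mean-value property in
upper-half-space coordinates. -/
theorem meanValueComplex_iff_upper {w : InfinitePlace K} (hw : w.IsComplex) {φ : G K → ℂ}
    (hs : ∀ z : G K, IsArchPosScalar w z → ∀ g : G K, φ (g * z) = φ g)
    (hk : ∀ k : G K, IsArchCompact w k → ∀ g : G K, φ (g * k) = φ g) :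
    MeanValueComplex φ w ↔ MeanValueUpper hw φ := by
  constructor
  · intro hm d hd g
    have h := hm d hd (fun α β => locInfComplex hw (eulerU α β d))
      (fun α β => ⟨isLocalAtInf_locInfComplex hw _, by
        rw [infComp_locInfComplex, coe_eulerU]; rfl⟩) g
    rw [← h]
    congr 1
    funext α
    congr 1
    funext β
    rw [apply_mul_eq_upper hw hs hk (eulerU α β d) (det_coe_eulerU α β d)
      (isLocalAtInf_locInfComplex hw _) (infComp_locInfComplex hw _) g]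
    rfl
  · intro hm d hd Y hY g
    rw [← hm d hd g]
    congr 1
    funext α
    congr 1
    funext β
    rw [apply_mul_eq_upper hw hs hk (eulerU α β d) (det_coe_eulerU α β d) (hY α β).1
      ((hY α β).2.trans (coe_eulerU α β d).symm) g]
    rfl

end Fermat.Agent.LT.H556.T0

end
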