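import Fermat.Agent.LT.H556.A0

/-!
# Row LT, tower T0 (helper556): API of `A0.lean` -- the level group

`A0.idealClosure 𝔫 v` is the closure of the ideal `𝔫` in `K_v`.  Here: it contains `x * k` for
`x ∈ 𝔫` and `k ∈ K` integral at `v` (density of `𝓞 K` in the `v`-integers of `K`,
`exists_valuation_sub_lt_of_integer`).  OFF-MAIN.
-/

set_option autoImplicit false

open IsDedekindDomain NumberField AutomorphicForm

noncomputable section

namespace Fermat.Agent.LT.H556.T0

open Fermat.Agent.LT.H556.A0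

variable {K : Type} [Field K] [NumberField K]

/-- Elements of `𝔫` lie in the closure of `𝔫`. -/
theorem mem_idealClosure_of_mem (𝔫 : Ideal (𝓞 K)) (v : HeightOneSpectrum (𝓞 K)) {x : 𝓞 K}
    (hx : x ∈ 𝔫) :
    algebraMap K (v.adicCompletion K) (algebraMap (𝓞 K) K x) ∈ idealClosure 𝔫 v :=
  subset_closure ⟨x, hx, rfl⟩

/-- `0` lies in the closure of `𝔫`. -/
theorem zero_mem_idealClosure (𝔫 : Ideal (𝓞 K)) (v : HeightOneSpectrum (𝓞 K)) :
    (0 : v.adicCompletion K) ∈ idealClosure 𝔫 v := by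
  have h := mem_idealClosure_of_mem 𝔫 v (x := 0) 𝔫.zero_mem
  simpa using h

/-- `𝔫 · (K ∩ 𝒪_v) ⊆ closure 𝔫`. -/
theorem mul_mem_idealClosure (𝔫 : Ideal (𝓞 K)) (v : HeightOneSpectrum (𝓞 K)) {x : 𝓞 K}
    (hx : x ∈ 𝔫) {k : K} (hk : v.valuation K k ≤ 1) :
    algebraMap K (v.adicCompletion K) (algebraMap (𝓞 K) K x * k) ∈ idealClosure 𝔫 v := by
  rw [idealClosure, mem_closure_iff_nhds]
  intro t ht
  obtain ⟨γ, hγ⟩ := (Valued.mem_nhds (R := v.adicCompletion K)).1 ht
  have hne : MonoidWithZeroHom.ValueGroup₀.embedding γ.1 ≠ 0 := by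
    intro h0
    exact γ.ne_zero (by simp at h0)
  obtain ⟨a, ha⟩ := HeightOneSpectrum.exists_valuation_sub_lt_of_integer v hk (Units.mk0 _ hne)
  rw [Units.val_mk0] at ha
  refine ⟨algebraMap K (v.adicCompletion K) (algebraMap (𝓞 K) K (x * a)), hγ ?_,
    ⟨x * a, 𝔫.mul_mem_right a hx, rfl⟩⟩
  show Valued.v.restrict (algebraMap K (v.adicCompletion K) (algebraMap (𝓞 K) K (x * a)) -
    algebraMap K (v.adicCompletion K) (algebraMap (𝓞 K) K x * k)) < γ.1
  rw [Valuation.restrict_lt_iff_lt_embedding]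
  rw [← map_sub, map_mul (algebraMap (𝓞 K) K), ← mul_sub]
  have h1 : Valued.v (algebraMap K (v.adicCompletion K)
      (algebraMap (𝓞 K) K x * (algebraMap (𝓞 K) K a - k)))
      = v.valuation K (algebraMap (𝓞 K) K x * (algebraMap (𝓞 K) K a - k)) :=
    HeightOneSpectrum.valuedAdicCompletion_eq_valuation' v _
  rw [h1, map_mul]
  have h2 : v.valuation K (algebraMap (𝓞 K) K x) ≤ 1 := by
    rw [HeightOneSpectrum.valuation_of_algebraMap]
    exact HeightOneSpectrum.intValuation_le_one v x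
  calc v.valuation K (algebraMap (𝓞 K) K x) * v.valuation K (algebraMap (𝓞 K) K a - k)
      ≤ 1 * v.valuation K (algebraMap (𝓞 K) K a - k) := by gcongr
    _ = v.valuation K (algebraMap (𝓞 K) K a - k) := one_mul _
    _ < MonoidWithZeroHom.ValueGroup₀.embedding γ.1 := ha

end Fermat.Agent.LT.H556.T0

end
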