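import Fermat.Agent.LT.T8.H864.Local

/-!
# Row LT, tower T0 (helper556): local elements at a COMPLEX place

On `LT/T8/H864/Local.lean` (helper864, byte-identical copy).  `locInfComplex hw : GL₂(ℂ) →* GL₂(𝔸_K)`
for a complex place `w`; an element supported at `w` is determined by its complex matrix.
OFF-MAIN.
-/

set_option autoImplicit false
set_option linter.unusedSectionVars false

open IsDedekindDomain NumberField

noncomputable section

namespace Fermat.Agent.LT.H556.T0

open Fermat.Agent.LT.H556.A0 Fermat.Agent.LT.T8.H864

variable {K : Type} [Field K] [NumberField K]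

/-- The complex numbers inside the completion at a complex place. -/
def cplxHom {w : InfinitePlace K} (hw : w.IsComplex) : ℂ →+* w.Completion :=
  (InfinitePlace.Completion.ringEquivComplexOfIsComplex hw).symm.toRingHom

theorem extensionEmbedding_cplxHom {w : InfinitePlace K} (hw : w.IsComplex) (z : ℂ) :
    InfinitePlace.Completion.extensionEmbedding w (cplxHom hw z) = z :=
  (InfinitePlace.Completion.ringEquivComplexOfIsComplex hw).apply_symm_apply z

/-- The local element at the complex place `w` given by a complex matrix. -/
def locInfComplex {w : InfinitePlace K} (hw : w.IsComplex) : GL (Fin 2) ℂ →* G K :=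
  (locInf w).comp (Matrix.GeneralLinearGroup.map (cplxHom hw))

theorem isLocalAtInf_locInfComplex {w : InfinitePlace K} (hw : w.IsComplex) (m : GL (Fin 2) ℂ) :
    IsLocalAtInf w (locInfComplex hw m) := isLocalAtInf_locInf w _

/-- The complex matrix of `locInfComplex hw m` at `w` is `m`. -/
theorem infComp_locInfComplex {w : InfinitePlace K} (hw : w.IsComplex) (m : GL (Fin 2) ℂ) :
    infComp w (locInfComplex hw m) = (m : Matrix (Fin 2) (Fin 2) ℂ) := by
  show infComp w (locInf w (Matrix.GeneralLinearGroup.map (cplxHom hw) m)) = _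
  rw [infComp_locInf_self]
  refine Matrix.ext fun i j => ?_
  exact extensionEmbedding_cplxHom hw _

/-- An element supported at the infinite place `w` is determined by its complex matrix at `w`. -/
theorem eq_of_isLocalAtInf {w : InfinitePlace K} {g g' : G K} (hg : IsLocalAtInf w g)
    (hg' : IsLocalAtInf w g') (h : infComp w g = infComp w g') : g = g' := by
  refine G_ext (fun w' => ?_) (fun v => ?_)
  · by_cases hw' : w' = w
    · subst hw'
      apply Units.ext
      rw [infComp_eq_infCompHom, infComp_eq_infCompHom] at h
      refine Matrix.ext fun i j => ?_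
      have hij := congrFun (congrFun h i) j
      exact (InfinitePlace.Completion.extensionEmbedding w').injective hij
    · rw [(trivAtInf_iff_hom w' g).1 (hg.1 w' hw'), (trivAtInf_iff_hom w' g').1 (hg'.1 w' hw')]
  · rw [(trivAtFin_iff_hom v g).1 (hg.2 v), (trivAtFin_iff_hom v g').1 (hg'.2 v)]

theorem eq_locInfComplex {w : InfinitePlace K} (hw : w.IsComplex) {g : G K}
    (hg : IsLocalAtInf w g) (m : GL (Fin 2) ℂ)
    (h : infComp w g = (m : Matrix (Fin 2) (Fin 2) ℂ)) : g = locInfComplex hw m :=
  eq_of_isLocalAtInf hg (isLocalAtInf_locInfComplex hw m) (h.trans (infComp_locInfComplex hw m).symm)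

/-- Unitary matrices at a complex place lie in the compact group of `A0.IsArchCompact`. -/
theorem isArchCompact_locInfComplex {w : InfinitePlace K} (hw : w.IsComplex) (u : GL (Fin 2) ℂ)
    (hu : (u : Matrix (Fin 2) (Fin 2) ℂ) * (u : Matrix (Fin 2) (Fin 2) ℂ).conjTranspose = 1) :
    IsArchCompact w (locInfComplex hw u) := by
  refine ⟨isLocalAtInf_locInfComplex hw u, ?_, fun hr => ?_⟩
  · rw [infComp_locInfComplex]
    exact hu
  · exact absurd hr (InfinitePlace.not_isReal_iff_isComplex.2 hw)

/-- Positive real scalar matrices at a complex place. -/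
theorem isArchPosScalar_locInfComplex {w : InfinitePlace K} (hw : w.IsComplex) (z : GL (Fin 2) ℂ)
    (r : ℝ) (hr : 0 < r)
    (hz : (z : Matrix (Fin 2) (Fin 2) ℂ) = Matrix.diagonal (fun _ => (r : ℂ))) :
    IsArchPosScalar w (locInfComplex hw z) :=
  ⟨isLocalAtInf_locInfComplex hw z, r, hr, by rw [infComp_locInfComplex, hz]⟩

end Fermat.Agent.LT.H556.T0

end
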